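import Fermat.Agent.Independence.Rigid
import Fermat.Agent.FrobCriterion.Places
import Fermat.Agent.TracePairNF.Traces

/-!
# Two curves modulo a prime over a number field

If each of two curves has full image modulo `l ≥ 7`, the image on the pair is every pair of equal
determinant or consists of pairs conjugate up to sign, and the squares of the traces at the good
places tell which.
-/

set_option autoImplicit false
set_option linter.unusedSectionVars false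

noncomputable section

namespace FA.IndependenceNF

open WeierstrassCurve NumberField IsDedekindDomain Matrix Filter Topology FA.IsogenyNF FA.TraceNF
  FA.TracePairNF
open scoped WeierstrassCurve.Affine Classical

universe u v

variable {K : Type u} [Field K] [NumberField K] {Kb : Type v} [Field Kb] [DecidableEq Kb]
  [Algebra K Kb] [CharZero Kb] [IsAlgClosed Kb] [Algebra.IsAlgebraic K Kb]
  (W₀ W₀' : WeierstrassCurve (𝓞 K)) [(W₀.map (algebraMap (𝓞 K) K)).IsElliptic]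
  [(W₀'.map (algebraMap (𝓞 K) K)).IsElliptic] {N : ℕ} (hN : N ≠ 0)
  {P Q : ((W₀.map (algebraMap (𝓞 K) K)).toAffine⁄Kb).Point}
  {P' Q' : ((W₀'.map (algebraMap (𝓞 K) K)).toAffine⁄Kb).Point}
  (h : TorGen (W₀.map (algebraMap (𝓞 K) K)) N P Q)
  (h' : TorGen (W₀'.map (algebraMap (𝓞 K) K)) N P' Q')

local notation "W" => W₀.map (algebraMap (𝓞 K) K)
local notation "W'" => W₀'.map (algebraMap (𝓞 K) K)

include hN h h'

/-- Both determinants are the cyclotomic character. -/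
theorem det_eq_det (σ : Kb ≃ₐ[K] Kb) : (h.rep hN σ).det = (h'.rep hN σ).det := by
  have : NeZero N := ⟨hN⟩
  have : NeZero (N : Kb) := ⟨Nat.cast_ne_zero.2 hN⟩
  obtain ⟨ζ, hζ⟩ := HasEnoughRootsOfUnity.exists_primitiveRoot Kb N
  obtain ⟨a, -, ha⟩ := hζ.eq_pow_of_pow_eq_one (ξ := σ ζ) (by
    rw [← map_pow, hζ.pow_eq_one, map_one])
  have hσ : ∀ μ : Kb, μ ^ N = 1 → σ μ = μ ^ a := fun μ hμ => by
    obtain ⟨i, -, rfl⟩ := hζ.eq_pow_of_pow_eq_one hμ
    rw [map_pow, ← ha, ← pow_mul, ← pow_mul, mul_comm]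
  rw [FA.WeilNF.det_rep hN h hσ, FA.WeilNF.det_rep hN h' hσ]

/-- **An automorphism with the traces and the determinant of a good place.** -/
theorem exists_frob_pair {v : HeightOneSpectrum (𝓞 K)} (hv : v ∉ badSet W₀ W₀' N) :
    ∃ σ : Kb ≃ₐ[K] Kb, (h.rep hN σ).trace = (frobTrace W₀ v : ZMod N) ∧
      (h'.rep hN σ).trace = (frobTrace W₀' v : ZMod N) ∧
      (h.rep hN σ).det = (Ideal.absNorm v.asIdeal : ZMod N) := by
  obtain ⟨hfd, hgal, hnf⟩ := pairField_facts (Kb := Kb) W₀ W₀' hN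
  have : IsAlgClosure K Kb := ⟨inferInstance, inferInstance⟩
  have : IsGalois K Kb := IsAlgClosure.isGalois K Kb
  obtain ⟨Q₀, hQ, hQv, τ, hτ⟩ :=
    FA.Chebotarev.exists_isArithFrobAt (L := pairField (Kb := Kb) W₀ W₀' N) v
  obtain ⟨σ, hσ⟩ := AlgEquiv.restrictNormalHom_surjective (F := K)
    (K₁ := pairField (Kb := Kb) W₀ W₀' N) Kb τ
  exact ⟨σ, frob_pair W₀ W₀' hN h h' hv hQ hQv hτ hσ⟩

/-- **The traces and the determinant of an automorphism recur at infinitely many places.** -/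
theorem infinite_places_pair {T : Set (ZMod N × ZMod N × ZMod N)} {σ : Kb ≃ₐ[K] Kb}
    (hσ : ((h.rep hN σ).trace, (h'.rep hN σ).trace, (h.rep hN σ).det) ∈ T) :
    {v : HeightOneSpectrum (𝓞 K) | ((frobTrace W₀ v : ZMod N), (frobTrace W₀' v : ZMod N),
      (Ideal.absNorm v.asIdeal : ZMod N)) ∈ T}.Infinite := by
  have : NeZero N := ⟨hN⟩
  intro hfin
  have h1 : Tendsto (placeRatio fun v : HeightOneSpectrum (𝓞 K) => ((frobTrace W₀ v : ZMod N),
      (frobTrace W₀' v : ZMod N), (Ideal.absNorm v.asIdeal : ZMod N)) ∈ Tᶜ) atTop (𝓝 1) :=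
    tendsto_one_of_finite (hfin.subset fun v hv => not_not.1 hv)
  have e := tendsto_nhds_unique h1 (tendsto_pair W₀ W₀' hN h h' Tᶜ)
  rw [eq_comm, div_eq_one_iff_eq (Nat.cast_ne_zero.2 Nat.card_pos.ne'), Nat.cast_inj] at e
  have hb : Function.Bijective (Subtype.val : {g : (pairHom W₀ W₀' hN h h').range //
      resid g.1 ∈ Tᶜ} → (pairHom W₀ W₀' hN h h').range) :=
    (Nat.bijective_iff_injective_and_card _).2 ⟨Subtype.val_injective, e⟩
  obtain ⟨g, hg⟩ := hb.2 ⟨_, σ, rfl⟩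
  have := g.2
  rw [hg] at this
  exact this hσ

omit hN h h'

variable {l : ℕ} [hl : Fact l.Prime]
  {P₁ Q₁ : ((W₀.map (algebraMap (𝓞 K) K)).toAffine⁄Kb).Point}
  {P₁' Q₁' : ((W₀'.map (algebraMap (𝓞 K) K)).toAffine⁄Kb).Point}
  (k : TorGen (W₀.map (algebraMap (𝓞 K) K)) l P₁ Q₁)
  (k' : TorGen (W₀'.map (algebraMap (𝓞 K) K)) l P₁' Q₁')
  (hgl : ∀ M : Matrix (Fin 2) (Fin 2) (ZMod l), M.det ≠ 0 →
    ∃ σ : Kb ≃ₐ[K] Kb, TorGen.rep (E := W₀.map (algebraMap (𝓞 K) K)) k hl.out.ne_zero σ = M)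
  (hgl' : ∀ M : Matrix (Fin 2) (Fin 2) (ZMod l), M.det ≠ 0 →
    ∃ σ : Kb ≃ₐ[K] Kb, TorGen.rep (E := W₀'.map (algebraMap (𝓞 K) K)) k' hl.out.ne_zero σ = M)

include k k' hgl hgl'

/-- The projections of the image of the pair are onto, with equal determinants. -/
theorem pair_props :
    (∀ A, ∃ B, (A, B) ∈ (pairHom W₀ W₀' hl.out.ne_zero k k').range) ∧
      (∀ x ∈ (pairHom W₀ W₀' hl.out.ne_zero k k').range,
        (x.1 : Matrix (Fin 2) (Fin 2) (ZMod l)).det = (x.2 : Matrix (Fin 2) (Fin 2) (ZMod l)).det) ∧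
      ∀ B, ∃ A, (A, B) ∈ (pairHom W₀ W₀' hl.out.ne_zero k k').range := by
  have hne : ∀ A : GL (Fin 2) (ZMod l), (A : Matrix (Fin 2) (Fin 2) (ZMod l)).det ≠ 0 := fun A =>
    ((Matrix.isUnit_iff_isUnit_det _).1 A.isUnit).ne_zero
  refine ⟨fun A => ?_, ?_, fun B => ?_⟩
  · obtain ⟨σ, hσ⟩ := hgl _ (hne A)
    exact ⟨_, σ, Prod.ext (Units.ext hσ) rfl⟩
  · rintro _ ⟨σ, rfl⟩
    exact det_eq_det W₀ W₀' hl.out.ne_zero k k' σ
  · obtain ⟨σ, hσ⟩ := hgl' _ (hne B)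
    exact ⟨_, σ, Prod.ext rfl (Units.ext hσ)⟩

/-- **The dichotomy**: a place with different squares of traces, and every pair of equal
determinant; or none, and the matrices are conjugate up to a sign. -/
theorem full_of_place (h7 : 7 ≤ l) {v : HeightOneSpectrum (𝓞 K)} (hv : v ∉ badSet W₀ W₀' l)
    (hne : (frobTrace W₀ v : ZMod l) ^ 2 ≠ (frobTrace W₀' v : ZMod l) ^ 2)
    {A B : Matrix (Fin 2) (Fin 2) (ZMod l)} (hA : A.det ≠ 0) (hAB : A.det = B.det) :
    ∃ σ : Kb ≃ₐ[K] Kb, TorGen.rep (E := W) k hl.out.ne_zero σ = A ∧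
      TorGen.rep (E := W') k' hl.out.ne_zero σ = B := by
  obtain ⟨h1, hdet, h2⟩ := pair_props W₀ W₀' k k' hgl hgl'
  rcases FA.Independence.full_or_trace_sq h7 h1 hdet h2 with hfull | htr
  · obtain ⟨σ, hσ⟩ := hfull (GeneralLinearGroup.mkOfDetNeZero A hA)
      (GeneralLinearGroup.mkOfDetNeZero B (hAB ▸ hA)) hAB
    exact ⟨σ, congrArg (fun x => (x.1 : Matrix (Fin 2) (Fin 2) (ZMod l))) hσ,
      congrArg (fun x => (x.2 : Matrix (Fin 2) (Fin 2) (ZMod l))) hσ⟩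
  · obtain ⟨σ, ha, hb, -⟩ := exists_frob_pair W₀ W₀' hl.out.ne_zero k k' hv
    have e : (TorGen.rep (E := W) k hl.out.ne_zero σ).trace ^ 2 =
        (TorGen.rep (E := W') k' hl.out.ne_zero σ).trace ^ 2 := htr _ _ ⟨σ, rfl⟩
    rw [ha, hb] at e
    exact absurd e hne

/-- **Conjugate up to a sign character** without such a place. -/
theorem sign_of_places (h7 : 7 ≤ l) (hall : ∀ v : HeightOneSpectrum (𝓞 K), v ∉ badSet W₀ W₀' l →
      (frobTrace W₀ v : ZMod l) ^ 2 = (frobTrace W₀' v : ZMod l) ^ 2) :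
    ∃ (U : GL (Fin 2) (ZMod l)) (ε : (Kb ≃ₐ[K] Kb) →* ℤˣ), ∀ σ,
      TorGen.rep (E := W') k' hl.out.ne_zero σ = ((ε σ : ℤ) : ZMod l) •
        ((U : Matrix (Fin 2) (Fin 2) (ZMod l)) * TorGen.rep (E := W) k hl.out.ne_zero σ *
          ((U⁻¹ : GL (Fin 2) (ZMod l)) : Matrix (Fin 2) (Fin 2) (ZMod l))) := by
  obtain ⟨h1, hdet, h2⟩ := pair_props W₀ W₀' k k' hgl hgl'
  have htr : ∀ A B, (A, B) ∈ (pairHom W₀ W₀' hl.out.ne_zero k k').range →
      (A : Matrix (Fin 2) (Fin 2) (ZMod l)).trace ^ 2 =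
        (B : Matrix (Fin 2) (Fin 2) (ZMod l)).trace ^ 2 := by
    intro A B ⟨σ, hσ⟩
    by_contra hne
    obtain ⟨v, hv, hbad⟩ := (infinite_places_pair W₀ W₀' hl.out.ne_zero k k' (σ := σ)
      (T := {x | x.1 ^ 2 ≠ x.2.1 ^ 2}) (by
        show (TorGen.rep (E := W) k hl.out.ne_zero σ).trace ^ 2 ≠
          (TorGen.rep (E := W') k' hl.out.ne_zero σ).trace ^ 2
        rw [← congrArg (fun x => (x.1 : Matrix (Fin 2) (Fin 2) (ZMod l))) hσ,
          ← congrArg (fun x => (x.2 : Matrix (Fin 2) (Fin 2) (ZMod l))) hσ] at hne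
        exact hne)).exists_notMem_finite (finite_badSet W₀ W₀' hl.out.ne_zero)
    exact hv (hall v hbad)
  obtain ⟨U, hU⟩ := FA.Independence.exists_conj_eq_or_neg h7 h1 hdet h2 htr
  let a : (Kb ≃ₐ[K] Kb) →* GL (Fin 2) (ZMod l) :=
    (TorGen.rep (E := W) k hl.out.ne_zero).toHomUnits
  let b : (Kb ≃ₐ[K] Kb) →* GL (Fin 2) (ZMod l) :=
    (TorGen.rep (E := W') k' hl.out.ne_zero).toHomUnits
  have hab : ∀ σ, b σ = U * a σ * U⁻¹ ∨ b σ = -(U * a σ * U⁻¹) :=
    fun σ => hU _ _ ⟨σ, rfl⟩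
  have hns : ∀ σ, U * a σ * U⁻¹ ≠ -(U * a σ * U⁻¹) := fun σ e => by
    have e' : ((1 : GL (Fin 2) (ZMod l)) : Matrix (Fin 2) (Fin 2) (ZMod l)) =
        ((-1 : GL (Fin 2) (ZMod l)) : Matrix (Fin 2) (Fin 2) (ZMod l)) := by
      refine congrArg Units.val (mul_left_cancel (a := U * a σ * U⁻¹) ?_)
      rw [mul_one, mul_neg_one]
      exact e
    have := congrFun (congrFun e' 0) 0
    simp only [Units.val_neg, Units.val_one, Matrix.neg_apply, Matrix.one_apply_eq] at this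
    exact FA.Independence.two_ne_zero_of h7 (by linear_combination this)
  let c : (Kb ≃ₐ[K] Kb) → ℤˣ := fun σ => if b σ = U * a σ * U⁻¹ then 1 else -1
  have hneg : ∀ σ, b σ = -(U * a σ * U⁻¹) → c σ = -1 := fun σ e =>
    if_neg fun e' => hns σ (e'.symm.trans e)
  have hmul : ∀ σ τ, c (σ * τ) = c σ * c τ := fun σ τ => by
    have hst : U * a (σ * τ) * U⁻¹ = U * a σ * U⁻¹ * (U * a τ * U⁻¹) := by
      rw [map_mul]; group
    rcases hab σ with e | e <;> rcases hab τ with e' | e'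
    · rw [show c (σ * τ) = 1 from if_pos (by rw [map_mul b, e, e', hst]),
        show c σ = 1 from if_pos e, show c τ = 1 from if_pos e', mul_one]
    · rw [hneg (σ * τ) (by rw [map_mul b, e, e', hst, mul_neg]), show c σ = 1 from if_pos e,
        hneg τ e', one_mul]
    · rw [hneg (σ * τ) (by rw [map_mul b, e, e', hst, neg_mul]), show c τ = 1 from if_pos e',
        hneg σ e, mul_one]
    · rw [show c (σ * τ) = 1 from if_pos (by rw [map_mul b, e, e', hst, neg_mul_neg]), hneg σ e,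
        hneg τ e', neg_mul_neg, one_mul]
  refine ⟨U, MonoidHom.mk' c hmul, fun σ => ?_⟩
  show (b σ : Matrix (Fin 2) (Fin 2) (ZMod l)) = ((c σ : ℤ) : ZMod l) •
    ((U : Matrix (Fin 2) (Fin 2) (ZMod l)) * (a σ : Matrix (Fin 2) (Fin 2) (ZMod l)) *
      ((U⁻¹ : GL (Fin 2) (ZMod l)) : Matrix (Fin 2) (Fin 2) (ZMod l)))
  rcases hab σ with e | e
  · rw [show c σ = 1 from if_pos e, e]; simp
  · rw [hneg σ e, e]; simp

end FA.IndependenceNF

end
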